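import Mathlib
import Fermat.Prelude.Def_GaloisRep_Adic
import Fermat.Prelude.Def_GaloisRep_LocalConditions
import Fermat.Agent.MU.S56.W1.Defs
import Fermat.Agent.S56.W1.Cocycle.DualTensor
import Fermat.Agent.MU.S56.Walls
import Fermat.Agent.MU.S56.Local.Defs

section MergeWrap_S56_W1_Cocycle_Lift -- from S56/W1/Cocycle/Lift.lean

set_option autoImplicit false
set_option linter.style.haveILetI false

namespace Fermat.Agent.S56

open scoped TensorProduct
open IsLocalRing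

/-- Lifting the residual isomorphism: a deformation `ρ` of `ρbar` to a local `k`-algebra `D` has a
`D`-basis in which it is congruent to `ρbar` modulo the maximal ideal. -/
theorem w1c_exists_lift {k : Type} [Field k] {D : Type} [CommRing D] [IsLocalRing D] [Algebra k D]
    (ρ : GaloisRepAdic D) (ρbar : ResidualGaloisRep k)
    (h : letI : Algebra k (ResidueField D) :=
        ((IsLocalRing.residue D).comp (algebraMap k D)).toAlgebra
      ρ.residual.IsEquiv (ρbar.baseChange (ResidueField D))) :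
    ∃ e : (D ⊗[k] ρbar.V) ≃ₗ[D] ρ.V,
      ∀ (σ : AlgebraicClosure ℚ ≃ₐ[ℚ] AlgebraicClosure ℚ) (x : D ⊗[k] ρbar.V),
        ρ.ρ σ (e x) - e ((ρbar.ρ σ).baseChange D x) ∈
          (maximalIdeal D) • (⊤ : Submodule D ρ.V) := by
  letI : Algebra k (ResidueField D) := ((IsLocalRing.residue D).comp (algebraMap k D)).toAlgebra
  letI : Module k (ResidueField D) := Algebra.toModule
  obtain ⟨E₀⟩ := h
  let E : (ResidueField D ⊗[D] ρ.V) ≃ₗ[ResidueField D] (ResidueField D ⊗[k] ρbar.V) :=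
    E₀.toLinearEquiv
  have hE : ∀ (σ : AlgebraicClosure ℚ ≃ₐ[ℚ] AlgebraicClosure ℚ) (x : ResidueField D ⊗[D] ρ.V),
      E ((ρ.ρ σ).baseChange (ResidueField D) x) = (ρbar.ρ σ).baseChange (ResidueField D) (E x) :=
    fun σ x => E₀.map_apply σ x
  clear_value E
  let b₀ : Module.Basis (Fin 2) k ρbar.V := Module.finBasisOfFinrankEq k ρbar.V ρbar.finrank_eq
  let β : Module.Basis (Fin 2) (ResidueField D) (ResidueField D ⊗[D] ρ.V) :=
    (Algebra.TensorProduct.basis (ResidueField D) b₀).map E.symm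
  have hsurj : Function.Surjective (TensorProduct.mk D (ResidueField D) ρ.V 1) :=
    TensorProduct.mk_surjective D ρ.V (ResidueField D) Ideal.Quotient.mk_surjective
  choose v hv using fun i => hsurj (β i)
  have hspan : Submodule.span D (Set.range v) = ⊤ :=
    IsLocalRing.span_eq_top_of_tmul_eq_basis v β hv
  let b₁ : Module.Basis (Fin 2) D ρ.V :=
    basisOfTopLeSpanOfCardEqFinrank v hspan.ge (by simp [ρ.finrank_eq])
  let e : (D ⊗[k] ρbar.V) ≃ₗ[D] ρ.V :=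
    (Algebra.TensorProduct.basis D b₀).equiv b₁ (Equiv.refl _)
  refine ⟨e, ?_⟩
  have he : ∀ i, e ((1 : D) ⊗ₜ[k] b₀ i) = v i := by
    intro i
    have h1 : e (Algebra.TensorProduct.basis D b₀ i) = b₁ (Equiv.refl _ i) :=
      Module.Basis.equiv_apply _ _ _ _
    rw [Algebra.TensorProduct.basis_apply] at h1
    rw [h1, Equiv.refl_apply, coe_basisOfTopLeSpanOfCardEqFinrank]
  have hA : ∀ u : ρbar.V, E ((1 : ResidueField D) ⊗ₜ[D] e ((1 : D) ⊗ₜ[k] u)) =
      (1 : ResidueField D) ⊗ₜ[k] u := by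
    intro u
    have hu : u ∈ Submodule.span k (Set.range b₀) := by rw [b₀.span_eq]; trivial
    induction hu using Submodule.span_induction with
    | mem x hx =>
      obtain ⟨i, rfl⟩ := hx
      rw [he]
      have h2 := hv i
      rw [TensorProduct.mk_apply] at h2
      rw [h2]
      show E (E.symm (Algebra.TensorProduct.basis (ResidueField D) b₀ i)) = _
      rw [LinearEquiv.apply_symm_apply, Algebra.TensorProduct.basis_apply]
    | zero => rw [TensorProduct.tmul_zero, map_zero, TensorProduct.tmul_zero, map_zero,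
        TensorProduct.tmul_zero]
    | add x y _ _ hx hy =>
      rw [TensorProduct.tmul_add, map_add, TensorProduct.tmul_add, map_add, hx, hy,
        TensorProduct.tmul_add]
    | smul a x _ hx =>
      have h1 : (1 : D) ⊗ₜ[k] (a • x) = (algebraMap k D a) • ((1 : D) ⊗ₜ[k] x) := by
        rw [TensorProduct.tmul_smul, algebraMap_smul]
      have h2 : (1 : ResidueField D) ⊗ₜ[D] ((algebraMap k D a) • e ((1 : D) ⊗ₜ[k] x)) =
          (algebraMap k (ResidueField D) a) •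
            ((1 : ResidueField D) ⊗ₜ[D] e ((1 : D) ⊗ₜ[k] x)) := by
        rw [TensorProduct.tmul_smul, ← algebraMap_smul (ResidueField D) (algebraMap k D a)]
        rfl
      rw [h1, map_smul, h2, map_smul, hx, algebraMap_smul, TensorProduct.tmul_smul]
  have h1 : ∀ (σ : AlgebraicClosure ℚ ≃ₐ[ℚ] AlgebraicClosure ℚ) (u : ρbar.V),
      ρ.ρ σ (e ((1 : D) ⊗ₜ[k] u)) - e ((1 : D) ⊗ₜ[k] ρbar.ρ σ u) ∈
        (maximalIdeal D) • (⊤ : Submodule D ρ.V) := by
    intro σ u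
    rw [← LinearMap.ker_tensorProductMk (I := maximalIdeal D) (Q := ρ.V), LinearMap.mem_ker,
      map_sub, sub_eq_zero]
    apply E.injective
    have h3 := hE σ ((1 : ResidueField D) ⊗ₜ[D] e ((1 : D) ⊗ₜ[k] u))
    rw [LinearMap.baseChange_tmul, hA, LinearMap.baseChange_tmul] at h3
    show E ((1 : ResidueField D) ⊗ₜ[D] ρ.ρ σ (e ((1 : D) ⊗ₜ[k] u))) =
      E ((1 : ResidueField D) ⊗ₜ[D] e ((1 : D) ⊗ₜ[k] ρbar.ρ σ u))
    rw [h3, hA]
  intro σ x
  induction x using TensorProduct.induction_on with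
  | zero => simp
  | tmul d u =>
    have h2 : d ⊗ₜ[k] u = d • ((1 : D) ⊗ₜ[k] u) := by
      rw [TensorProduct.smul_tmul', smul_eq_mul, mul_one]
    have h3 : d ⊗ₜ[k] (ρbar.ρ σ u) = d • ((1 : D) ⊗ₜ[k] ρbar.ρ σ u) := by
      rw [TensorProduct.smul_tmul', smul_eq_mul, mul_one]
    rw [LinearMap.baseChange_tmul, h2, h3, map_smul, map_smul, map_smul, ← smul_sub]
    exact Submodule.smul_mem _ _ (h1 σ u)
  | add x y hx hy =>
    rw [map_add, map_add, map_add, map_add, add_sub_add_comm]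
    exact Submodule.add_mem _ hx hy

end Fermat.Agent.S56
end MergeWrap_S56_W1_Cocycle_Lift

section MergeWrap_S56_W1_Cocycle_Core -- from S56/W1/Cocycle/Core.lean

set_option autoImplicit false
set_option linter.style.haveILetI false

namespace Fermat.Agent.S56

open Fermat.Agent.F4 IsLocalRing groupCohomology
open scoped TensorProduct

/-- Every automorphism acts on `μ_p` as a power map. -/
theorem w1c_exists_pow (p : ℕ) [Fact p.Prime] (σ : GQ) :
    ∃ a : ℕ, ∀ μ : AlgebraicClosure ℚ, μ ^ p ^ 1 = 1 → σ μ = μ ^ a := by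
  haveI : NeZero (p ^ 1) := ⟨pow_ne_zero _ (Fact.out : p.Prime).ne_zero⟩
  haveI : NeZero ((p ^ 1 : ℕ) : AlgebraicClosure ℚ) :=
    ⟨Nat.cast_ne_zero.mpr (pow_ne_zero _ (Fact.out : p.Prime).ne_zero)⟩
  obtain ⟨ζ, hζ⟩ := HasEnoughRootsOfUnity.exists_primitiveRoot (AlgebraicClosure ℚ) (p ^ 1)
  have hσζ : (σ ζ) ^ (p ^ 1) = 1 := by rw [← map_pow, hζ.pow_eq_one, map_one]
  obtain ⟨a, -, ha⟩ := hζ.eq_pow_of_pow_eq_one hσζ
  refine ⟨a, fun μ hμ => ?_⟩
  obtain ⟨j, -, rfl⟩ := hζ.eq_pow_of_pow_eq_one hμ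
  rw [map_pow, ← ha, ← pow_mul, ← pow_mul, mul_comm]

/-- Every finite subextension of `ℚ̄/ℚ` is contained in a finite stable one. -/
theorem w1c_exists_stable (L : IntermediateField ℚ (AlgebraicClosure ℚ))
    (hL : FiniteDimensional ℚ L) :
    ∃ F : IntermediateField ℚ (AlgebraicClosure ℚ), L ≤ F ∧ FiniteDimensional ℚ F ∧
      IsStableField F := by
  haveI : IsGalois ℚ (AlgebraicClosure ℚ) := isGalois_Qbar
  haveI : Normal ℚ (AlgebraicClosure ℚ) := IsGalois.to_normal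
  refine ⟨IntermediateField.normalClosure ℚ (↥L) (AlgebraicClosure ℚ),
    IntermediateField.le_normalClosure _, normalClosure.is_finiteDimensional ℚ _ _, ?_⟩
  have hn : Normal ℚ (IntermediateField.normalClosure ℚ (↥L) (AlgebraicClosure ℚ)) :=
    normalClosure.normal ℚ _ _
  intro σ x hx
  have h := IntermediateField.normal_iff_forall_map_eq'.mp hn σ
  rw [← h]
  exact ⟨x, hx, rfl⟩

theorem w1c_maximalIdeal_sq (k : Type) [Field k] : (maximalIdeal (DualNumber k)) ^ 2 = ⊥ := by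
  rw [DualNumber.maximalIdeal_eq_span_singleton_eps, Ideal.span_singleton_pow, sq,
    DualNumber.eps_mul_eps]
  simp

/-- Elements of `𝔪 M` over the dual numbers are multiples of `ε`. -/
theorem w1c_exists_eps_smul {k : Type} [Field k] {M : Type} [AddCommGroup M]
    [Module (DualNumber k) M] {x : M}
    (hx : x ∈ (maximalIdeal (DualNumber k)) • (⊤ : Submodule (DualNumber k) M)) :
    ∃ w : M, x = (DualNumber.eps : DualNumber k) • w := by
  refine Submodule.smul_induction_on hx ?_ ?_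
  · intro r hr n _
    rw [DualNumber.maximalIdeal_eq_span_singleton_eps, Ideal.mem_span_singleton'] at hr
    obtain ⟨a, rfl⟩ := hr
    exact ⟨a • n, by rw [smul_smul, mul_comm]⟩
  · rintro x y ⟨w, rfl⟩ ⟨w', rfl⟩
    exact ⟨w + w', by rw [smul_add]⟩

/-- Core of W1a-1 over a general field `k`. -/
theorem w1c_exists_cocycle {k : Type} [Field k] (p : ℕ) [Fact p.Prime]
    (ρbar : ResidualGaloisRep k)
    (hdet : (GaloisRepAdic.ofResidualGaloisRep ρbar).DetIsCyclotomic p)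
    (ρ : GaloisRepAdic (DualNumber k)) (hdetρ : ρ.DetIsCyclotomic p)
    (hres : letI : Algebra k (ResidueField (DualNumber k)) :=
        ((IsLocalRing.residue (DualNumber k)).comp (algebraMap k (DualNumber k))).toAlgebra
      ρ.residual.IsEquiv (ρbar.baseChange (ResidueField (DualNumber k)))) :
    ∃ c : ↥(Z1 levelsAll (ad0 ρbar)), IsDefOf ρbar c.1 ρ := by
  obtain ⟨e, he⟩ := w1c_exists_lift ρ ρbar hres
  -- the conjugated representation on `k[ε] ⊗ V`
  let N : GQ → Module.End (DualNumber k) (DualNumber k ⊗[k] ρbar.V) := fun σ =>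
    (e.symm : ρ.V →ₗ[DualNumber k] DualNumber k ⊗[k] ρbar.V) ∘ₗ ρ.ρ σ ∘ₗ
      (e : DualNumber k ⊗[k] ρbar.V →ₗ[DualNumber k] ρ.V)
  have hN_apply : ∀ σ x, N σ x = e.symm (ρ.ρ σ (e x)) := fun σ x => rfl
  have hN_mul : ∀ σ τ, N (σ * τ) = N σ * N τ := by
    intro σ τ
    refine LinearMap.ext fun x => ?_
    rw [Module.End.mul_apply, hN_apply, hN_apply, hN_apply, LinearEquiv.apply_symm_apply, map_mul,
      Module.End.mul_apply]
  have hN_fst : ∀ σ, w1cEndFst (N σ) = ρbar.ρ σ := by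
    intro σ
    refine LinearMap.ext fun u => ?_
    obtain ⟨w, hw⟩ := w1c_exists_eps_smul (he σ ((1 : DualNumber k) ⊗ₜ[k] u))
    rw [LinearMap.baseChange_tmul, sub_eq_iff_eq_add] at hw
    rw [w1cEndFst_apply, hN_apply, hw, map_add, map_smul, LinearEquiv.symm_apply_apply, map_add,
      w1cFst_eps_smul, zero_add, w1cFst_tmul]
    simp
  let b : GQ → Module.End k ρbar.V := fun σ => w1cEndSnd (N σ)
  have hN : ∀ σ, N σ = (ρbar.ρ σ).baseChange (DualNumber k) +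
      (DualNumber.eps : DualNumber k) • (b σ).baseChange (DualNumber k) := by
    intro σ
    have h := w1c_end_decomp (N σ)
    rw [hN_fst] at h
    exact h
  have hb_mul : ∀ σ τ, b (σ * τ) = ρbar.ρ σ * b τ + b σ * ρbar.ρ τ := by
    intro σ τ
    have h := hN_mul σ τ
    rw [hN (σ * τ), hN σ, hN τ, w1c_end_mul] at h
    exact (w1c_end_ext h).2
  have hinv : ∀ σ : GQ, ρbar.ρ σ * ρbar.ρ σ⁻¹ = 1 := fun σ => by
    rw [← map_mul, mul_inv_cancel, map_one]
  have hinv' : ∀ σ : GQ, ρbar.ρ σ⁻¹ * ρbar.ρ σ = 1 := fun σ => by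
    rw [← map_mul, inv_mul_cancel, map_one]
  let c₀ : GQ → Module.End k ρbar.V := fun σ => b σ * ρbar.ρ σ⁻¹
  have hc₀ : ∀ σ, c₀ σ * ρbar.ρ σ = b σ := fun σ => by
    show b σ * ρbar.ρ σ⁻¹ * ρbar.ρ σ = b σ
    rw [mul_assoc, hinv', mul_one]
  -- determinants
  have hp0 : (p : k) = 0 := by
    have h := hdet.1
    have hbot : maximalIdeal k = ⊥ :=
      (Ideal.eq_bot_or_top _).resolve_right (Ideal.IsMaximal.ne_top inferInstance)
    rw [hbot, Ideal.mem_bot] at h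
    exact h
  have hpk : ((p ^ 1 : ℕ) : k) = 0 := by rw [pow_one, hp0]
  have hpD : ((p ^ 1 : ℕ) : DualNumber k) = 0 := by
    have h : ((p ^ 1 : ℕ) : DualNumber k) = algebraMap k (DualNumber k) ((p ^ 1 : ℕ) : k) := by
      rw [map_natCast]
    rw [h, hpk, map_zero]
  have hdet_eq : ∀ σ, LinearMap.det (ρ.ρ σ) =
      algebraMap k (DualNumber k) (LinearMap.det (ρbar.ρ σ)) := by
    intro σ
    obtain ⟨a, ha⟩ := w1c_exists_pow p σ
    have h1 := hdetρ.2 1 σ a ha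
    have h2 := hdet.2 1 σ a ha
    rw [hpD, Ideal.span_singleton_eq_bot.mpr rfl, Ideal.mem_bot, sub_eq_zero] at h1
    rw [hpk, Ideal.span_singleton_eq_bot.mpr rfl, Ideal.mem_bot, sub_eq_zero] at h2
    have h2' : LinearMap.det (ρbar.ρ σ) = (a : k) := h2
    rw [h1, h2', map_natCast]
  have hdetN : ∀ σ, LinearMap.det (N σ) = LinearMap.det (ρ.ρ σ) := fun σ =>
    LinearMap.det_conj (ρ.ρ σ) e.symm
  have htr : ∀ σ, LinearMap.trace k ρbar.V (c₀ σ) = 0 := by
    intro σ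
    have h1 := hdetN σ
    rw [hN σ, ← hc₀ σ, w1c_det ρbar.finrank_eq, hdet_eq σ] at h1
    have h2 : (DualNumber.eps : DualNumber k) * algebraMap k (DualNumber k)
        (LinearMap.trace k ρbar.V (c₀ σ) * LinearMap.det (ρbar.ρ σ)) = 0 := by
      rw [map_mul]
      linear_combination h1
    have h3 : LinearMap.trace k ρbar.V (c₀ σ) * LinearMap.det (ρbar.ρ σ) = 0 := by
      have h4 := congrArg TrivSqZeroExt.snd h2
      rw [TrivSqZeroExt.algebraMap_eq_inl, TrivSqZeroExt.snd_mul, TrivSqZeroExt.snd_inl,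
        TrivSqZeroExt.fst_inl, DualNumber.snd_eps, smul_zero, zero_add, TrivSqZeroExt.snd_zero]
        at h4
      simpa using h4
    have hd : LinearMap.det (ρbar.ρ σ) ≠ 0 := by
      intro h0
      have h5 := congrArg LinearMap.det (hinv σ)
      rw [map_mul, h0, zero_mul, map_one] at h5
      exact zero_ne_one h5
    exact (mul_eq_zero.mp h3).resolve_right hd
  let c : GQ → ad0 ρbar := fun σ =>
    (⟨c₀ σ, LinearMap.mem_ker.mpr (htr σ)⟩ : ↥(ad0Sub ρbar))
  have hcoc : c ∈ cocycles₁ (ad0 ρbar) := by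
    refine (mem_cocycles₁_iff c).mpr fun g h => Subtype.ext ?_
    show b (g * h) * ρbar.ρ (g * h)⁻¹ =
      ρbar.ρ g * (b h * ρbar.ρ h⁻¹ * ρbar.ρ g⁻¹) + b g * ρbar.ρ g⁻¹
    have e1 : ρbar.ρ g * b h * (ρbar.ρ h⁻¹ * ρbar.ρ g⁻¹) =
        ρbar.ρ g * (b h * ρbar.ρ h⁻¹ * ρbar.ρ g⁻¹) := by
      simp only [mul_assoc]
    have e2 : b g * ρbar.ρ h * (ρbar.ρ h⁻¹ * ρbar.ρ g⁻¹) = b g * ρbar.ρ g⁻¹ := by
      rw [mul_assoc, ← mul_assoc (ρbar.ρ h), hinv, one_mul]
    rw [hb_mul, mul_inv_rev, map_mul, add_mul, e1, e2]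
  have hlc : IsLC₁ levelsAll c := by
    obtain ⟨L, hL, h1⟩ := ρ.isAdicContinuous 2
    obtain ⟨F, hLF, hF, hFs⟩ := w1c_exists_stable L hL
    refine ⟨F.fixingSubgroup, ⟨F, hF, hFs, rfl⟩, fun g s hs => ?_⟩
    have hs1 : ρ.ρ s = 1 := by
      refine LinearMap.ext fun v => ?_
      have h2 := h1 s (fun x hx => (IntermediateField.mem_fixingSubgroup_iff F s).mp hs x
        (hLF hx)) v
      rw [w1c_maximalIdeal_sq, Submodule.bot_smul, Submodule.mem_bot, sub_eq_zero] at h2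
      exact h2
    have hNgs : N (g * s) = N g := by
      refine LinearMap.ext fun x => ?_
      rw [hN_apply, hN_apply, map_mul, hs1, mul_one]
    have hρgs : ρbar.ρ (g * s) = ρbar.ρ g := by rw [← hN_fst, hNgs, hN_fst]
    have hbgs : b (g * s) = b g := by
      show w1cEndSnd (N (g * s)) = w1cEndSnd (N g)
      rw [hNgs]
    have hinvgs : ρbar.ρ (g * s)⁻¹ = ρbar.ρ g⁻¹ :=
      left_inv_eq_right_inv (a := ρbar.ρ g) (by rw [← hρgs]; exact hinv' _) (hinv g)
    exact Subtype.ext (show b (g * s) * ρbar.ρ (g * s)⁻¹ = b g * ρbar.ρ g⁻¹ by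
      rw [hbgs, hinvgs])
  refine ⟨⟨c, hcoc, hlc⟩, e, fun σ x => ?_⟩
  show ρ.ρ σ (e x) = e (defEnd ρbar (c₀ σ) σ x)
  have h1 : defEnd ρbar (c₀ σ) σ = N σ := by
    rw [defEnd, hc₀, ← hN]
  rw [h1, hN_apply, LinearEquiv.apply_symm_apply]

end Fermat.Agent.S56
end MergeWrap_S56_W1_Cocycle_Core

section MergeWrap_S56_W1_Cocycle_EquivCard -- from S56/W1/Cocycle/EquivCard.lean

set_option autoImplicit false

namespace Fermat.Agent.S56

open Fermat.Agent.F4 IsLocalRing groupCohomology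
open scoped TensorProduct

section Intertwine

variable {k : Type} [Field k] (ρbar : ResidualGaloisRep k)

/-- `defEnd` in the endomorphism ring. -/
theorem w1c_defEnd_eq (c : Module.End k ρbar.V) (σ : GQ) :
    defEnd ρbar c σ = (ρbar.ρ σ).baseChange (DualNumber k) +
      (DualNumber.eps : DualNumber k) •
        ((c.baseChange (DualNumber k)) * ((ρbar.ρ σ).baseChange (DualNumber k))) := by
  unfold defEnd
  rw [LinearMap.baseChange_mul]

/-- The key identity: if `c R - c' R = R m - m R` then `(1 - ε m)(R + ε c' R) = (R + ε c R)(1 - ε m)`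
in any algebra over a ring with an element `ε` of square zero. -/
theorem w1c_intertwine_identity {A E : Type*} [CommRing A] [Ring E] [Algebra A E]
    (ε : A) (hε : ε * ε = 0) (R C C' M : E) (h : C * R - C' * R = R * M - M * R) :
    (1 - ε • M) * (R + ε • (C' * R)) = (R + ε • (C * R)) * (1 - ε • M) := by
  have hεε : ∀ X Y : E, (ε • X) * (ε • Y) = 0 := fun X Y => by
    rw [smul_mul_smul_comm, hε, zero_smul]
  have key : ε • (C' * R) - ε • (M * R) = ε • (C * R) - ε • (R * M) := by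
    have := congrArg (fun x => ε • x) h
    simp only [smul_sub] at this
    rw [sub_eq_sub_iff_add_eq_add] at this ⊢
    rw [add_comm, ← this, add_comm]
  rw [sub_mul, one_mul, mul_add, smul_mul_assoc, hεε, add_zero, mul_sub, mul_one, add_mul,
    mul_smul_comm, hεε, add_zero, add_sub_assoc, add_sub_assoc, key]

/-- `1 - ε m` is invertible with inverse `1 + ε m`. -/
theorem w1c_unit_identity {A E : Type*} [CommRing A] [Ring E] [Algebra A E]
    (ε : A) (hε : ε * ε = 0) (M : E) :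
    (1 - ε • M) * (1 + ε • M) = 1 ∧ (1 + ε • M) * (1 - ε • M) = 1 := by
  have hεε : ∀ X Y : E, (ε • X) * (ε • Y) = 0 := fun X Y => by
    rw [smul_mul_smul_comm, hε, zero_smul]
  constructor
  · rw [sub_mul, one_mul, mul_add, mul_one, hεε, add_zero, add_sub_cancel_right]
  · rw [add_mul, one_mul, mul_sub, mul_one, hεε, sub_zero, sub_add_cancel]

/-- W1a-2: the class of the cocycle determines the deformation up to equivalence. -/
theorem w1c_isEquiv_of_isDefOf (c c' : ↥(Z1 levelsAll (ad0 ρbar)))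
    (ρ ρ' : GaloisRepAdic (DualNumber k))
    (h : IsDefOf ρbar c.1 ρ) (h' : IsDefOf ρbar c'.1 ρ')
    (hcc : H1smπ levelsAll (ad0 ρbar) c = H1smπ levelsAll (ad0 ρbar) c') : ρ.IsEquiv ρ' := by
  obtain ⟨e, he⟩ := h
  obtain ⟨e', he'⟩ := h'
  -- the coboundary
  have hmem : c - c' ∈ (B1 (ad0 ρbar)).comap (Z1 levelsAll (ad0 ρbar)).subtype :=
    (Submodule.Quotient.eq _).1 hcc
  obtain ⟨m, hm⟩ := hmem
  have hm' : ∀ σ : GQ, (c.1 σ : ↥(ad0Sub ρbar)).1 - (c'.1 σ : ↥(ad0Sub ρbar)).1 =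
      ρbar.ρ σ * ((m : ↥(ad0Sub ρbar)).1 * ρbar.ρ σ⁻¹) - (m : ↥(ad0Sub ρbar)).1 := by
    intro σ
    have h1 := congrFun hm σ
    have h2 := congrArg (fun x : ↥(ad0Sub ρbar) => x.1) h1
    exact h2.symm
  -- the relation in `End_k V`
  have hrel : ∀ σ : GQ, (c'.1 σ : ↥(ad0Sub ρbar)).1 * ρbar.ρ σ - (c.1 σ : ↥(ad0Sub ρbar)).1 * ρbar.ρ σ
      = ρbar.ρ σ * (-(m : ↥(ad0Sub ρbar)).1) - (-(m : ↥(ad0Sub ρbar)).1) * ρbar.ρ σ := by
    intro σ
    have h1 : ρbar.ρ σ⁻¹ * ρbar.ρ σ = 1 := by rw [← map_mul, inv_mul_cancel, map_one]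
    have h2 := congrArg (fun x => x * ρbar.ρ σ) (hm' σ)
    simp only [sub_mul, mul_assoc, h1, mul_one] at h2
    rw [mul_neg, neg_mul, sub_neg_eq_add, ← sub_eq_neg_add, ← neg_sub, h2, neg_sub]
  set ε : DualNumber k := DualNumber.eps with hεdef
  have hε : ε * ε = 0 := DualNumber.eps_mul_eps
  set N : Module.End (DualNumber k) (DualNumber k ⊗[k] ρbar.V) :=
    (-(m : ↥(ad0Sub ρbar)).1).baseChange (DualNumber k) with hN
  have hw := w1c_unit_identity ε hε N
  let W : (DualNumber k ⊗[k] ρbar.V) ≃ₗ[DualNumber k] (DualNumber k ⊗[k] ρbar.V) :=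
    LinearEquiv.ofLinearMap (1 - ε • N) (1 + ε • N) hw.1 hw.2
  have hWD : ∀ (σ : GQ) (y : DualNumber k ⊗[k] ρbar.V),
      W (defEnd ρbar (c.1 σ : ↥(ad0Sub ρbar)).1 σ y) =
        defEnd ρbar (c'.1 σ : ↥(ad0Sub ρbar)).1 σ (W y) := by
    intro σ y
    have h1 := w1c_intertwine_identity ε hε ((ρbar.ρ σ).baseChange (DualNumber k))
      ((c'.1 σ : ↥(ad0Sub ρbar)).1.baseChange (DualNumber k))
      ((c.1 σ : ↥(ad0Sub ρbar)).1.baseChange (DualNumber k)) N (by
        rw [hN, ← LinearMap.baseChange_mul, ← LinearMap.baseChange_mul,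
          ← LinearMap.baseChange_mul, ← LinearMap.baseChange_mul, ← LinearMap.baseChange_sub,
          ← LinearMap.baseChange_sub, hrel σ])
    rw [← w1c_defEnd_eq, ← w1c_defEnd_eq] at h1
    exact LinearMap.congr_fun h1 y
  refine ⟨⟨e.symm.trans (W.trans e'), fun σ x => ?_⟩⟩
  obtain ⟨y, rfl⟩ := e.surjective x
  rw [he σ y]
  simp only [LinearEquiv.trans_apply, LinearEquiv.symm_apply_apply]
  rw [hWD σ y, he' σ (W y)]

end Intertwine

/-- W1a-3: if every tangent point of type `𝒟` comes from a cocycle and the set of tangent classes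
is finite with at most `N` elements, the deformations of type `𝒟` to `k[ε]` fall into at most `N`
classes. -/
theorem w1c_tangentCardLe_of {𝒪 : Type} [CommRing 𝒪] [IsLocalRing 𝒪]
    (ρbar : ResidualGaloisRep (ResidueField 𝒪))
    {𝒟 : ∀ ⦃A : Type⦄ [CommRing A] [IsLocalRing A] [Algebra 𝒪 A], GaloisRepAdic A → Prop}
    (hex : ∀ ρ : GaloisRepAdic (DualNumber (ResidueField 𝒪)), IsTangentPoint 𝒪 ρbar 𝒟 ρ →
      ∃ c : ↥(Z1 levelsAll (ad0 ρbar)), IsDefOf ρbar c.1 ρ)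
    (N : ℕ) (hN : 0 < N) (hfin : (TangentClasses 𝒪 ρbar 𝒟).Finite)
    (hcard : (TangentClasses 𝒪 ρbar 𝒟).ncard ≤ N) :
    TangentCardLe 𝒪 ρbar 𝒟 N := by
  classical
  choose cOf hcOf using hex
  have : Finite ↥(TangentClasses 𝒪 ρbar 𝒟) := hfin.to_subtype
  have hcard' : Nat.card ↥(TangentClasses 𝒪 ρbar 𝒟) ≤ N := by
    rw [Nat.card_coe_set_eq]
    exact hcard
  let j : ↥(TangentClasses 𝒪 ρbar 𝒟) → Fin N := fun x =>
    Fin.castLE hcard' (Finite.equivFin _ x)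
  have hj : Function.Injective j := fun x y hxy =>
    (Finite.equivFin _).injective (Fin.castLE_injective hcard' hxy)
  have hmem : ∀ (ρ : GaloisRepAdic (DualNumber (ResidueField 𝒪)))
      (h : IsTangentPoint 𝒪 ρbar 𝒟 ρ),
      H1smπ levelsAll (ad0 ρbar) (cOf ρ h) ∈ TangentClasses 𝒪 ρbar 𝒟 :=
    fun ρ h => ⟨cOf ρ h, rfl, ρ, h, hcOf ρ h⟩
  refine ⟨fun ρ => if h : IsTangentPoint 𝒪 ρbar 𝒟 ρ then j ⟨_, hmem ρ h⟩ else ⟨0, hN⟩, ?_⟩
  intro ρ ρ' h h' hf
  simp only [dif_pos h, dif_pos h'] at hf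
  have h1 := congrArg Subtype.val (hj hf)
  exact w1c_isEquiv_of_isDefOf ρbar (cOf ρ h) (cOf ρ' h') ρ ρ' (hcOf ρ h) (hcOf ρ' h') h1

end Fermat.Agent.S56
end MergeWrap_S56_W1_Cocycle_EquivCard

section MergeWrap_S56_W1_Cocycle -- from S56/W1/Cocycle.lean

set_option autoImplicit false

namespace Fermat.Agent.S56

open Fermat.Agent.F4 IsLocalRing

/-- W1a-1: every deformation to `k[ε]` with cyclotomic determinant comes from a level-constant
trace-zero cocycle. -/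
theorem exists_cocycle_of_tangentPoint {𝒪 : Type} [CommRing 𝒪] [IsLocalRing 𝒪]
    (p : ℕ) [Fact p.Prime] (ρbar : ResidualGaloisRep (ResidueField 𝒪))
    (hdet : (GaloisRepAdic.ofResidualGaloisRep ρbar).DetIsCyclotomic p)
    {𝒟 : ∀ ⦃A : Type⦄ [CommRing A] [IsLocalRing A] [Algebra 𝒪 A], GaloisRepAdic A → Prop}
    (h𝒟 : ∀ ⦃A : Type⦄ [CommRing A] [IsLocalRing A] [Algebra 𝒪 A] (ρ : GaloisRepAdic A),
      𝒟 ρ → ρ.DetIsCyclotomic p)
    (ρ : GaloisRepAdic (DualNumber (ResidueField 𝒪))) (hρ : IsTangentPoint 𝒪 ρbar 𝒟 ρ) :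
    ∃ c : ↥(Z1 levelsAll (ad0 ρbar)), IsDefOf ρbar c.1 ρ := by
  letI := Fermat.Agent.S53.dualNumberAlgebra 𝒪
  exact w1c_exists_cocycle p ρbar hdet ρ (h𝒟 ρ hρ.1) hρ.2

/-- W1a-2: the class of the cocycle determines the deformation up to equivalence. -/
theorem isEquiv_of_isDefOf {k : Type} [Field k] (ρbar : ResidualGaloisRep k)
    (c c' : ↥(Z1 levelsAll (ad0 ρbar))) (ρ ρ' : GaloisRepAdic (DualNumber k))
    (h : IsDefOf ρbar c.1 ρ) (h' : IsDefOf ρbar c'.1 ρ')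
    (hcc : H1smπ levelsAll (ad0 ρbar) c = H1smπ levelsAll (ad0 ρbar) c') : ρ.IsEquiv ρ' :=
  w1c_isEquiv_of_isDefOf ρbar c c' ρ ρ' h h' hcc

/-- W1a: the number of classes of deformations of type `𝒟` to `k[ε]` is at most the number of
their cohomology classes. -/
theorem tangentCardLe_of_tangentClasses {𝒪 : Type} [CommRing 𝒪] [IsLocalRing 𝒪]
    (p : ℕ) [Fact p.Prime] (ρbar : ResidualGaloisRep (ResidueField 𝒪))
    (hdet : (GaloisRepAdic.ofResidualGaloisRep ρbar).DetIsCyclotomic p)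
    {𝒟 : ∀ ⦃A : Type⦄ [CommRing A] [IsLocalRing A] [Algebra 𝒪 A], GaloisRepAdic A → Prop}
    (h𝒟 : ∀ ⦃A : Type⦄ [CommRing A] [IsLocalRing A] [Algebra 𝒪 A] (ρ : GaloisRepAdic A),
      𝒟 ρ → ρ.DetIsCyclotomic p)
    (N : ℕ) (hN : 0 < N) (hfin : (TangentClasses 𝒪 ρbar 𝒟).Finite)
    (hcard : (TangentClasses 𝒪 ρbar 𝒟).ncard ≤ N) :
    TangentCardLe 𝒪 ρbar 𝒟 N :=
  w1c_tangentCardLe_of ρbar
    (fun ρ hρ => exists_cocycle_of_tangentPoint p ρbar hdet h𝒟 ρ hρ) N hN hfin hcard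

end Fermat.Agent.S56
end MergeWrap_S56_W1_Cocycle

section MergeWrap_S56_WallsC -- from S56/WallsC.lean

set_option autoImplicit false

namespace Fermat.Agent.S56

open Fermat.Agent.F4 IsLocalRing

/-- **Walls W1b-W4** in cohomological form. -/
def SelmerWallC (𝒪 : Type) [CommRing 𝒪] [IsLocalRing 𝒪] (p : ℕ)
    (ρbar : ResidualGaloisRep (ResidueField 𝒪)) (S : Finset ℕ)
    (cond : Finset ℕ → ∀ ⦃A : Type⦄ [CommRing A] [IsLocalRing A] [Algebra 𝒪 A],
      GaloisRepAdic A → Prop) : Prop :=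
  ∃ Ψ : Submodule (ResidueField 𝒪) (H1sm levelsAll (ad0Dual ρbar)),
    FiniteDimensional (ResidueField 𝒪) Ψ ∧
    ∀ Q : Finset ℕ, (∀ q ∈ Q, IsTWPrime p 0 ρbar S q) → Kills ρbar Ψ Q →
      (TangentClasses 𝒪 ρbar (cond Q)).Finite ∧
        (TangentClasses 𝒪 ρbar (cond Q)).ncard ≤ Nat.card (ResidueField 𝒪) ^ Q.card

theorem selmerWall_of_C {𝒪 : Type} [CommRing 𝒪] [IsLocalRing 𝒪] [Finite (ResidueField 𝒪)]
    (p : ℕ) [Fact p.Prime] (ρbar : ResidualGaloisRep (ResidueField 𝒪))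
    (hdet : (GaloisRepAdic.ofResidualGaloisRep ρbar).DetIsCyclotomic p) (S : Finset ℕ)
    (cond : Finset ℕ → ∀ ⦃A : Type⦄ [CommRing A] [IsLocalRing A] [Algebra 𝒪 A],
      GaloisRepAdic A → Prop)
    (hcond : ∀ (Q : Finset ℕ) ⦃A : Type⦄ [CommRing A] [IsLocalRing A] [Algebra 𝒪 A]
      (ρ : GaloisRepAdic A), cond Q ρ → ρ.DetIsCyclotomic p)
    (h : SelmerWallC 𝒪 p ρbar S cond) : SelmerWall 𝒪 p ρbar S cond := by
  obtain ⟨Ψ, hΨ, h⟩ := h
  refine ⟨Ψ, hΨ, fun Q hQ hkill => ?_⟩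
  obtain ⟨hfin, hcard⟩ := h Q hQ hkill
  exact tangentCardLe_of_tangentClasses p ρbar hdet (hcond Q) _
    (pow_pos Nat.card_pos _) hfin hcard

end Fermat.Agent.S56
end MergeWrap_S56_WallsC

section MergeWrap_S56_Local_Walls -- from S56/Local/Walls.lean

set_option autoImplicit false

namespace Fermat.Agent.S56

open Fermat.Agent.F4 ExtCitation

/-- `χ` is the mod `p` cyclotomic character: `σ μ = μ ^ χ(σ)` for the `p`-th roots of unity. -/
def IsCycloChar {k : Type} [Field k] (p : ℕ) (χ : GQ →* kˣ) : Prop :=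
  ∀ (σ : GQ) (a : ℕ), (∀ μ : AlgebraicClosure ℚ, μ ^ p = 1 → σ μ = μ ^ a) → (χ σ : k) = (a : k)

/-- **Local wall at `v` with bound `B`**: the restrictions at `v` of the classes in `T` lie in a
finite subgroup of `H¹(G_{ℚ_v}, M)` with at most `B · #H⁰(G_{ℚ_v}, M)` elements. -/
def LocalWall {k : Type} [Field k] (M : Rep k GQ) (T : Set (H1sm levelsAll M)) (v : Nat.Primes)
    (B : ℕ) : Prop :=
  ∃ L : AddSubgroup (H1loc M v), (∀ x ∈ T, resLoc M v x ∈ L) ∧ Finite L ∧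
    Nat.card L ≤ B * Nat.card (H0loc M v)

/-- **Wall W2** (Greenberg–Wiles inequality, dual Selmer group killed). -/
def GWStatement (k : Type) [Field k] (p : ℕ) [Fact p.Prime] : Prop :=
  ∀ (M : Rep k GQ) (χ : GQ →* kˣ) (S₀ Q : Finset Nat.Primes)
    (L : ∀ v : Nat.Primes, AddSubgroup (H1loc M v)),
    IsCycloChar p χ → Module.Finite k M → IsSmooth (levelsS (S₀ ∪ Q)) M →
    pPrime p ∈ S₀ → Disjoint S₀ Q → H0glob M = ⊥ →
    (∀ v ∈ S₀, Finite (L v)) → (∀ q ∈ Q, Finite (H1loc M q)) →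
    (∀ n ∈ unrOutside (S₀ ∪ Q) (M.dualTwist χ),
      (∀ q ∈ Q, resLoc (M.dualTwist χ) q n = 0) → n = 0) →
    (selSet (S₀ ∪ Q) M S₀ L).Finite ∧
      (selSet (S₀ ∪ Q) M S₀ L).ncard * (∏ v ∈ S₀ ∪ Q, Nat.card (H0loc M v)) *
          Nat.card (H0arch M)
        ≤ (∏ v ∈ S₀, Nat.card (L v)) * ∏ q ∈ Q, Nat.card (H1loc M q)

end Fermat.Agent.S56
end MergeWrap_S56_Local_Walls
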